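import Fermat.Agent.H91.PurityMain
import Fermat.Agent.H22.ES.KLSetting
import Fermat.Agent.H87.KL.KumGauss

/-!
# P-ES / KL-N-P (row 395): the instantiation of the abstract purity core in the `H22.KL` setting

`A` a ring, `E` a field over `A`, `x : E`.  The abstract core (`Fermat.Agent.H91.PurityMain`,
`MaxOrdLocalStatement`, ...) is applied with

* `R := A[X]`, acting on `E` by `X ↦ x`  (`polyAlgE A E x`, a LOCAL instance),
* `K := ↥(chartField A E x)`  (`polyAlgK A E x`, a LOCAL instance).

Use:  `letI := polyAlgE A E x; letI := polyAlgK A E x`.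
-/

set_option autoImplicit false
set_option linter.style.haveILetI false
set_option linter.unusedSectionVars false

noncomputable section

open Polynomial

namespace Fermat.Agent.H91.KLNorm

open Fermat.Agent.H22.KL
open Fermat.Agent.H67.KLConn (PiDvd)
open Fermat.Agent.H87.KL (evX IntX GC)

section Inst

variable (A : Type) [CommRing A] (E : Type) [Field E] [Algebra A E]

/-- `A[X]` acts on `E` through `X ↦ x`. -/
@[reducible] def polyAlgE (x : E) : Algebra A[X] E := (evX (A := A) x).toAlgebra

theorem aeval_mem_chartField (x : E) (p : A[X]) : aeval x p ∈ chartField A E x :=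
  Subfield.subset_closure (Fermat.Agent.H87.KL.aeval_mem_chartRing x p)

/-- the ring homomorphism `A[X] → K₀(x)`, `X ↦ x`. -/
def evK (x : E) : A[X] →+* ↥(chartField A E x) :=
  (evX (A := A) x).codRestrict (chartField A E x) (aeval_mem_chartField A E x)

/-- `A[X]` acts on `K₀(x) = chartField A E x` through `X ↦ x`. -/
@[reducible] def polyAlgK (x : E) : Algebra A[X] ↥(chartField A E x) := (evK A E x).toAlgebra

theorem polyAlg_isScalarTower (x : E) :
    letI := polyAlgE A E x
    letI := polyAlgK A E x
    IsScalarTower A[X] ↥(chartField A E x) E := by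
  letI := polyAlgE A E x
  letI := polyAlgK A E x
  exact IsScalarTower.of_algebraMap_eq (fun p => rfl)

theorem polyAlgE_algebraMap (x : E) (p : A[X]) :
    letI := polyAlgE A E x
    algebraMap A[X] E p = aeval x p := rfl

theorem polyAlgK_algebraMap_coe (x : E) (p : A[X]) :
    letI := polyAlgK A E x
    ((algebraMap A[X] ↥(chartField A E x) p : ↥(chartField A E x)) : E) = aeval x p := rfl

theorem isIntegral_iff_intX (x y : E) :
    letI := polyAlgE A E x
    IsIntegral A[X] y ↔ IntX (A := A) x y := Iff.rfl

end Inst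

section Transport

variable (A : Type) [CommRing A] [IsDomain A] (E : Type) [Field E] [Algebra A E]

theorem evX_injective {x : E} (hx : Transcendental A x) : Function.Injective (evX (A := A) x) :=
  transcendental_iff_injective.1 hx

theorem evK_injective {x : E} (hx : Transcendental A x) : Function.Injective (evK A E x) := by
  intro p q h
  apply evX_injective A E hx
  exact congrArg Subtype.val h

theorem mem_chartField_iff {x : E} (z : E) :
    z ∈ chartField A E x ↔ ∃ p q : A[X], z = aeval x p / aeval x q := by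
  unfold chartField
  rw [Subfield.mem_closure_iff]
  have hcl : Subring.closure (chartRing A E x : Set E) = (chartRing A E x).toSubring :=
    Subring.closure_eq (chartRing A E x).toSubring
  constructor
  · rintro ⟨y, hy, w, hw, rfl⟩
    rw [hcl] at hy hw
    obtain ⟨p, rfl⟩ := (Fermat.Agent.H87.KL.mem_chartRing_iff x y).1 hy
    obtain ⟨q, rfl⟩ := (Fermat.Agent.H87.KL.mem_chartRing_iff x w).1 hw
    exact ⟨p, q, rfl⟩
  · rintro ⟨p, q, rfl⟩
    refine ⟨aeval x p, ?_, aeval x q, ?_, rfl⟩
    · rw [hcl]; exact Fermat.Agent.H87.KL.aeval_mem_chartRing x p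
    · rw [hcl]; exact Fermat.Agent.H87.KL.aeval_mem_chartRing x q

theorem polyAlg_isFractionRing {x : E} (hx : Transcendental A x) :
    letI := polyAlgK A E x
    IsFractionRing A[X] ↥(chartField A E x) := by
  letI := polyAlgK A E x
  haveI : FaithfulSMul A[X] ↥(chartField A E x) :=
    (faithfulSMul_iff_algebraMap_injective A[X] ↥(chartField A E x)).mpr (evK_injective A E hx)
  refine IsFractionRing.of_field (R := A[X]) (K := ↥(chartField A E x)) fun z => ?_
  obtain ⟨p, q, hz⟩ := (mem_chartField_iff A E (z : E)).1 z.2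
  refine ⟨p, q, ?_⟩
  apply Subtype.ext
  rw [hz]
  rfl

end Transport


section Ring

variable (A : Type) [CommRing A] [IsDomain A] [IsDiscreteValuationRing A]

theorem prime_C_of_irreducible {ϖ : A} (hϖ : Irreducible ϖ) : Prime (C ϖ : A[X]) :=
  Polynomial.prime_C_iff.mpr hϖ.prime

theorem span_eq_maximalIdeal {ϖ : A} (hϖ : Irreducible ϖ) :
    Ideal.span {ϖ} = IsLocalRing.maximalIdeal A :=
  (Irreducible.maximalIdeal_eq hϖ).symm

theorem isPrincipalIdealRing_quot {ϖ : A} (hϖ : Irreducible ϖ) :
    IsPrincipalIdealRing (A[X] ⧸ Ideal.span {(C ϖ : A[X])}) := by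
  haveI : (Ideal.span {ϖ}).IsMaximal := by
    rw [span_eq_maximalIdeal A hϖ]; infer_instance
  letI : Field (A ⧸ Ideal.span {ϖ}) := Ideal.Quotient.field _
  have hmap : (Ideal.span {ϖ}).map (C : A →+* A[X]) = Ideal.span {(C ϖ : A[X])} := by
    rw [Ideal.map_span, Set.image_singleton]
  let e := Ideal.polynomialQuotientEquivQuotientPolynomial (Ideal.span {ϖ})
  let e' : (A ⧸ Ideal.span {ϖ})[X] →+* A[X] ⧸ Ideal.span {(C ϖ : A[X])} :=
    (Ideal.quotEquivOfEq hmap).toRingHom.comp e.toRingHom
  have hsurj : Function.Surjective e' :=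
    (Ideal.quotEquivOfEq hmap).surjective.comp e.surjective
  exact IsPrincipalIdealRing.of_surjective e' hsurj

theorem outsideMax_iff (ϖ : A) (g s : A[X]) :
    OutsideMax A ϖ g s ↔ s ∉ Ideal.span {(C ϖ : A[X]), g} := by
  unfold OutsideMax
  rw [Ideal.mem_span_pair]
  constructor
  · rintro h ⟨a, b, hab⟩
    exact h ⟨a, b, by rw [← hab]; ring⟩
  · rintro h ⟨p, q, hpq⟩
    exact h ⟨p, q, by rw [hpq]; ring⟩

theorem isMaximal_span_pair {ϖ : A} (hϖ : Irreducible ϖ) {g : A[X]}
    (hg : Irreducible (g.map (IsLocalRing.residue A))) :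
    (Ideal.span {(C ϖ : A[X]), g}).IsMaximal := by
  haveI : Fact (Irreducible (g.map (IsLocalRing.residue A))) := ⟨hg⟩
  let φ : A[X] →+* AdjoinRoot (g.map (IsLocalRing.residue A)) :=
    (AdjoinRoot.mk (g.map (IsLocalRing.residue A))).comp (mapRingHom (IsLocalRing.residue A))
  have hφ : Function.Surjective φ :=
    AdjoinRoot.mk_surjective.comp (map_surjective _ IsLocalRing.residue_surjective)
  have hker : RingHom.ker φ = Ideal.span {(C ϖ : A[X]), g} := by
    ext p
    rw [RingHom.mem_ker, Ideal.mem_span_pair]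
    constructor
    · intro hp
      have h1 : g.map (IsLocalRing.residue A) ∣ p.map (IsLocalRing.residue A) :=
        AdjoinRoot.mk_eq_zero.mp hp
      obtain ⟨qbar, hq⟩ := h1
      obtain ⟨q, rfl⟩ := map_surjective _ IsLocalRing.residue_surjective qbar
      have h2 : (p - g * q).map (IsLocalRing.residue A) = 0 := by
        rw [Polynomial.map_sub, Polynomial.map_mul, hq, sub_self]
      have h3 : p - g * q ∈ RingHom.ker (mapRingHom (IsLocalRing.residue A)) := h2
      rw [Polynomial.ker_mapRingHom, IsLocalRing.ker_residue, ← span_eq_maximalIdeal A hϖ,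
        Ideal.map_span, Set.image_singleton, Ideal.mem_span_singleton] at h3
      obtain ⟨a, ha⟩ := h3
      refine ⟨a, q, ?_⟩
      rw [mul_comm a, ← ha, mul_comm q]; ring
    · rintro ⟨a, b, rfl⟩
      have h1 : (C ϖ : A[X]).map (IsLocalRing.residue A) = 0 := by
        rw [Polynomial.map_C]
        have : IsLocalRing.residue A ϖ = 0 := by
          rw [IsLocalRing.residue_eq_zero_iff, ← span_eq_maximalIdeal A hϖ]
          exact Ideal.mem_span_singleton_self ϖ
        rw [this, C_0]
      show φ (a * C ϖ + b * g) = 0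
      simp only [φ, RingHom.comp_apply, coe_mapRingHom, Polynomial.map_add, Polynomial.map_mul,
        h1, mul_zero, zero_add, map_mul, AdjoinRoot.mk_self]
  rw [← hker]
  exact RingHom.ker_isMaximal_of_surjective φ hφ

end Ring


section GB

variable (A : Type) [CommRing A] [IsDomain A] [IsDiscreteValuationRing A]
variable (E : Type) [Field E] [Algebra A E]

theorem finiteDimensional_of_goodBasis {ϖ : A} {x : E} (hGB : GoodBasis A E ϖ x) :
    FiniteDimensional ↥(chartField A E x) E := by
  obtain ⟨n, b, -, -⟩ := hGB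
  exact Module.Finite.of_basis b

/-- the good basis of `H22.KL` is a good basis at `(ϖ)` in the sense of `H91.PurityMain` -/
theorem hasGoodBasisAt_of_goodBasis {ϖ : A} {x : E} (hx : Transcendental A x)
    (hFR : letI := polyAlgK A E x; IsFractionRing A[X] ↥(chartField A E x))
    (hGB : GoodBasis A E ϖ x) :
    letI := polyAlgE A E x
    letI := polyAlgK A E x
    haveI := polyAlg_isScalarTower A E x
    haveI := hFR
    haveI := finiteDimensional_of_goodBasis A E hGB
    HasGoodBasisAt A[X] ↥(chartField A E x) E (Ideal.span {(C ϖ : A[X])}) := by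
  letI := polyAlgE A E x
  letI := polyAlgK A E x
  haveI := polyAlg_isScalarTower A E x
  haveI := hFR
  haveI := finiteDimensional_of_goodBasis A E hGB
  obtain ⟨n, b, hb, hd⟩ := hGB
  have hint : ∀ i, IsIntegral A[X] (b i) := fun i =>
    (Fermat.Agent.H87.KL.mem_chartClosure_iff x (b i)).1 (hb i)
  choose g hg using fun i j =>
    exists_trace_eq (R := A[X]) (K := ↥(chartField A E x)) ((hint i).mul (hint j))
  refine ⟨n, fun i => b i, Matrix.of g, ?_, hint, fun i j => hg i j, ?_⟩
  · rw [Module.finrank_eq_card_basis b, Fintype.card_fin]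
  · intro hmem
    apply hd
    have h1 : Algebra.discr ↥(chartField A E x) (fun i => b i) =
        algebraMap A[X] ↥(chartField A E x) (Matrix.of g).det := by
      rw [Algebra.discr_def, traceMatrix_eq_map (G := Matrix.of g) (fun i j => hg i j),
        ← RingHom.mapMatrix_apply, ← RingHom.map_det]
    rw [h1, polyAlgK_algebraMap_coe]
    exact (Fermat.Agent.H87.KL.piDvd_aeval_iff hx ϖ _).2 (Ideal.mem_span_singleton.mp hmem)

end GB


end Fermat.Agent.H91.KLNorm
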