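import Fermat.Agent.H91.KLNorm.PurityGlue

/-!
# P-ES / KL-N-P, FULL form (for ES-D-EX / genus equality): normality, not only idempotents

`IntModPi A E ϖ x y` : `y` satisfies a monic polynomial with coefficients in `A[x]` modulo `ϖ C`.
`PurityFullStatement` : `H22.KL.PurityStatement` with the hypothesis "`y` idempotent modulo `ϖ C`"
replaced by `IntModPi`.  `NormalityAtFullStatement`, `NormalityFullStatement` : the same for
`NormalityAtStatement`, `NormalityStatement`.
-/

set_option autoImplicit false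
set_option linter.style.haveILetI false
set_option linter.unusedSectionVars false

noncomputable section

open Polynomial

namespace Fermat.Agent.H91.KLNorm

open Fermat.Agent.H67.KLConn (PiDvd)
open Fermat.Agent.H87.KL (evX IntX GC)

/-- `y` is integral over `A[x]` modulo `ϖ C(x)`: some monic `P ∈ A[X][T]` has
`P(x, y) ∈ ϖ C(x)`. -/
def IntModPi (A : Type) [CommRing A] (E : Type) [Field E] [Algebra A E] (ϖ : A) (x y : E) :
    Prop :=
  ∃ P : A[X][X], P.Monic ∧
    Fermat.Agent.H22.KL.PiDvdSet A E ϖ (Fermat.Agent.H22.KL.gaussClosure A E ϖ x)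
      (Polynomial.eval₂ (evX (A := A) x) y P)

theorem intModPi_of_idempotent (A : Type) [CommRing A] (E : Type) [Field E] [Algebra A E]
    (ϖ : A) (x y : E)
    (h : Fermat.Agent.H22.KL.PiDvdSet A E ϖ (Fermat.Agent.H22.KL.gaussClosure A E ϖ x)
      (y * y - y)) : IntModPi A E ϖ x y := by
  refine ⟨X ^ 2 - X, monic_X_pow_sub (lt_of_le_of_lt degree_X_le (by norm_num)), ?_⟩
  have : Polynomial.eval₂ (evX (A := A) x) y (X ^ 2 - X : A[X][X]) = y * y - y := by
    simp only [eval₂_sub, eval₂_pow, eval₂_X]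
    ring
  rw [this]
  exact h

/-- **PURITY, full form.** -/
def PurityFullStatement : Prop :=
  ∀ (A : Type) [CommRing A] [IsDomain A] [IsDiscreteValuationRing A]
    (E : Type) [Field E] [Algebra A E] [CharZero E],
    Function.Injective (algebraMap A E) →
    ∀ (ϖ : A), Irreducible ϖ → ∀ (x : E), Transcendental A x →
      Fermat.Agent.H22.KL.GoodBasis A E ϖ x →
      ∀ (g : A[X]), g.Monic → Irreducible (g.map (IsLocalRing.residue A)) →
        Fermat.Agent.H22.KL.UnramifiedNear A E ϖ x g →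
        ∀ y ∈ Fermat.Agent.H22.KL.gaussClosure A E ϖ x, IntModPi A E ϖ x y →
          ∃ s : A[X], Fermat.Agent.H22.KL.OutsideMax A ϖ g s ∧
            ∃ b ∈ Fermat.Agent.H22.KL.chartClosure A E x,
              Fermat.Agent.H22.KL.PiDvdSet A E ϖ (Fermat.Agent.H22.KL.gaussClosure A E ϖ x)
                (aeval x s * y - b)

/-- **KL-NORM, local full form** (purity + tame base change). -/
def NormalityAtFullStatement : Prop :=
  ∀ (A : Type) [CommRing A] [IsDomain A] [IsDiscreteValuationRing A]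
    (E : Type) [Field E] [Algebra A E] [CharZero E],
    Function.Injective (algebraMap A E) →
    ∀ (ϖ : A), Irreducible ϖ → ∀ (x : E), Transcendental A x →
      Fermat.Agent.H22.KL.GoodBasis A E ϖ x →
      ∀ (g : A[X]), g.Monic → Irreducible (g.map (IsLocalRing.residue A)) →
        Fermat.Agent.H22.KL.BranchHypAt A E ϖ x g →
        ∀ y ∈ Fermat.Agent.H22.KL.gaussClosure A E ϖ x, IntModPi A E ϖ x y →
          ∃ s : A[X], Fermat.Agent.H22.KL.OutsideMax A ϖ g s ∧
            ∃ b ∈ Fermat.Agent.H22.KL.chartClosure A E x,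
              Fermat.Agent.H22.KL.PiDvdSet A E ϖ (Fermat.Agent.H22.KL.gaussClosure A E ϖ x)
                (aeval x s * y - b)

/-- **KL-NORM, global full form in the chart `x`**: `B(x) / ϖ B(x)` is integrally closed in
`C / ϖ C`. -/
def NormalityFullStatement : Prop :=
  ∀ (A : Type) [CommRing A] [IsDomain A] [IsDiscreteValuationRing A]
    (E : Type) [Field E] [Algebra A E] [CharZero E],
    Function.Injective (algebraMap A E) →
    ∀ (ϖ : A), Irreducible ϖ → ∀ (x : E), Transcendental A x →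
      Fermat.Agent.H22.KL.GoodBasis A E ϖ x →
      (∀ g : A[X], g.Monic → Irreducible (g.map (IsLocalRing.residue A)) →
        Fermat.Agent.H22.KL.BranchHypAt A E ϖ x g) →
      ∀ y ∈ Fermat.Agent.H22.KL.gaussClosure A E ϖ x, IntModPi A E ϖ x y →
        ∃ b ∈ Fermat.Agent.H22.KL.chartClosure A E x,
          Fermat.Agent.H22.KL.PiDvdSet A E ϖ (Fermat.Agent.H22.KL.gaussClosure A E ϖ x) (y - b)

/-- the full forms imply the idempotent forms of `H22.KL` -/
theorem purityStatement_of_full (h : PurityFullStatement) :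
    Fermat.Agent.H22.KL.PurityStatement := by
  intro A _ _ _ E _ _ _ hinj ϖ hϖ x hx hGB g hgm hgirr hUN y hy hyy
  exact h A E hinj ϖ hϖ x hx hGB g hgm hgirr hUN y hy (intModPi_of_idempotent A E ϖ x y hyy)

theorem normalityAtStatement_of_full (h : NormalityAtFullStatement) :
    Fermat.Agent.H22.KL.NormalityAtStatement := by
  intro A _ _ _ E _ _ _ hinj ϖ hϖ x hx hGB g hgm hgirr hB y hy hyy
  exact h A E hinj ϖ hϖ x hx hGB g hgm hgirr hB y hy (intModPi_of_idempotent A E ϖ x y hyy)

theorem normalityStatement_of_full (h : NormalityFullStatement) :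
    Fermat.Agent.H22.KL.NormalityStatement := by
  intro A _ _ _ E _ _ _ hinj ϖ hϖ x hx hGB hB y hy hyy
  exact h A E hinj ϖ hϖ x hx hGB hB y hy (intModPi_of_idempotent A E ϖ x y hyy)

/-- **KL-N-P, full form**: from the maximal-order lemma and the adapter. -/
theorem purityFullStatement_of (hMO : MaxOrdLocalStatement) (hAD : UnramifiedAdapterStatement) :
    PurityFullStatement := by
  intro A _ _ _ E _ _ _ hinj ϖ hϖ x hx hGB g hgm hgirr hUN y hy hyy
  letI := polyAlgE A E x
  letI := polyAlgK A E x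
  haveI := polyAlg_isScalarTower A E x
  haveI hFR := polyAlg_isFractionRing A E hx
  haveI := finiteDimensional_of_goodBasis A E hGB
  have hp : Prime (C ϖ : A[X]) := prime_C_of_irreducible A hϖ
  haveI hPID := isPrincipalIdealRing_quot A hϖ
  haveI hmax := isMaximal_span_pair A hϖ hgirr
  have hp𝔪 : (C ϖ : A[X]) ∈ Ideal.span {(C ϖ : A[X]), g} :=
    Ideal.subset_span (Set.mem_insert _ _)
  have hgbp := hasGoodBasisAt_of_goodBasis A E hx hFR hGB
  have hnd := hAD A E hinj ϖ hϖ x hx hGB g hgm hgirr hUN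
  have hgb𝔪 : HasGoodBasisAt A[X] ↥(Fermat.Agent.H22.KL.chartField A E x) E
      (Ideal.span {(C ϖ : A[X]), g}) :=
    hasGoodBasisAt_of_forall_prime' hp hp𝔪 hgbp hnd
  have hyG : InGaussClosure A[X] E (C ϖ) y := by
    obtain ⟨H, hH, hint⟩ := (Fermat.Agent.H87.KL.mem_gaussClosure_iff hx ϖ y).1 hy
    exact ⟨H, hH, by rw [Algebra.smul_def]; exact hint⟩
  have hP : ∃ P : A[X][X], P.Monic ∧ ∃ z : E, InGaussClosure A[X] E (C ϖ) z ∧
      Polynomial.aeval y P = (C ϖ : A[X]) • z := by
    obtain ⟨P, hPm, c, hc, hyc⟩ := hyy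
    obtain ⟨H, hH, hint⟩ := (Fermat.Agent.H87.KL.mem_gaussClosure_iff hx ϖ c).1 hc
    refine ⟨P, hPm, c, ⟨H, hH, by rw [Algebra.smul_def]; exact hint⟩, ?_⟩
    rw [Algebra.smul_def, polyAlgE_algebraMap, aeval_C, ← hyc]
    rfl
  obtain ⟨s, hs, b, z, hb, hz, hsy⟩ :=
    hMO A[X] ↥(Fermat.Agent.H22.KL.chartField A E x) E (C ϖ) hp hPID _ hmax hp𝔪 hgb𝔪 y hyG hP
  refine ⟨s, (outsideMax_iff A ϖ g s).2 hs, b,
    (Fermat.Agent.H87.KL.mem_chartClosure_iff x b).2 hb, z, ?_, ?_⟩
  · obtain ⟨H, hH, hint⟩ := hz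
    exact (Fermat.Agent.H87.KL.mem_gaussClosure_iff hx ϖ z).2
      ⟨H, hH, by rw [Algebra.smul_def] at hint; exact hint⟩
  · rw [Algebra.smul_def, Algebra.smul_def, polyAlgE_algebraMap, polyAlgE_algebraMap,
      aeval_C] at hsy
    rw [hsy]; ring

end Fermat.Agent.H91.KLNorm
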