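import Fermat.Agent.H91.KLNorm.PurityFinal
import Fermat.Agent.H22.ES.KLSetting3

/-!
# P-ES / KL-N-TAME (row 396): the tame step as "purity upstairs + descent", both forms

* `intModPi_map` : transport of `IntModPi` to a cover `E₁ / E` with `x = q(s)`.
* `TameCoverStatement` : the tame Kummer cover package (field `E₁ = E(s)`, `s ^ e = x - c`, good
  basis and unramifiedness upstairs, `C ⊆ C₁`, and the DESCENT of the conclusion of purity from
  `(E₁, s, X)` to `(E, x, X - c)`); it does not mention the hypothesis on `y`.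
* `normalityAtFull_of_cover : TameCoverStatement → NormalityAtFullStatement`,
  `normalityAt_of_cover : TameCoverStatement → H22.KL.NormalityAtStatement`.
-/

set_option autoImplicit false
set_option linter.style.haveILetI false
set_option linter.unusedSectionVars false

noncomputable section

open Polynomial

namespace Fermat.Agent.H91.KLNorm

open Fermat.Agent.H87.KL (evX)

/-- transport of `IntModPi` along a cover `E₁ / E` in which `x` is a polynomial in `s` -/
theorem intModPi_map (A : Type) [CommRing A] (E E₁ : Type) [Field E] [Field E₁] [Algebra A E]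
    [Algebra A E₁] [Algebra E E₁] [IsScalarTower A E E₁] (ϖ : A) (x : E) (s : E₁) (q : A[X])
    (hxs : algebraMap E E₁ x = aeval s q)
    (hC : ∀ z ∈ Fermat.Agent.H22.KL.gaussClosure A E ϖ x,
      algebraMap E E₁ z ∈ Fermat.Agent.H22.KL.gaussClosure A E₁ ϖ s)
    (y : E) (hy : IntModPi A E ϖ x y) : IntModPi A E₁ ϖ s (algebraMap E E₁ y) := by
  obtain ⟨P, hPm, c', hc', hPc⟩ := hy
  refine ⟨P.map (compRingHom q), hPm.map _, algebraMap E E₁ c', hC c' hc', ?_⟩
  have h1 : (evX (A := A) s).comp (compRingHom q) = (algebraMap E E₁).comp (evX (A := A) x) := by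
    apply Polynomial.ringHom_ext
    · intro a
      simp only [RingHom.comp_apply, coe_compRingHom_apply, C_comp,
        Fermat.Agent.H87.KL.evX_apply, aeval_C]
      exact IsScalarTower.algebraMap_apply A E E₁ a
    · simp only [RingHom.comp_apply, coe_compRingHom_apply, X_comp,
        Fermat.Agent.H87.KL.evX_apply, aeval_X]
      exact hxs.symm
  rw [eval₂_map, h1, ← hom_eval₂, hPc, map_mul, ← IsScalarTower.algebraMap_apply]

/-- **TAME COVER** (the content of row 396): for tame branch data at `x = c` there is a field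
`E₁ = E(s)`, `s ^ e = x - c`, with a good basis in the chart `s`, unramified near `s = 0`, such
that `C ⊆ C₁` and the conclusion of purity descends from `(E₁, s, X)` to `(E, x, X - c)`. -/
def TameCoverStatement : Prop :=
  ∀ (A : Type) [CommRing A] [IsDomain A] [IsDiscreteValuationRing A]
    (E : Type) [Field E] [Algebra A E] [CharZero E],
    Function.Injective (algebraMap A E) →
    ∀ (ϖ : A), Irreducible ϖ → ∀ (x : E), Transcendental A x →
      Fermat.Agent.H22.KL.GoodBasis A E ϖ x →
      ∀ (c : A) (e : ℕ), 0 < e → IsUnit ((e : ℕ) : A) → (∃ ζ : A, IsPrimitiveRoot ζ e) →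
        Fermat.Agent.H22.KL.TameNear A E ϖ x c e →
        (∀ d : ℕ, d.Prime → d ∣ e → ∃ v : ValuationSubring E,
          Fermat.Agent.H22.KL.IsPlace A E v ∧
            ¬ Fermat.Agent.H22.KL.OrdDvd E v d (x - algebraMap A E c)) →
        ∃ (E₁ : Type) (_ : Field E₁) (_ : Algebra A E₁) (_ : Algebra E E₁)
          (_ : IsScalarTower A E E₁) (_ : CharZero E₁) (s : E₁),
          Function.Injective (algebraMap A E₁) ∧ Transcendental A s ∧
          s ^ e = algebraMap E E₁ (x - algebraMap A E c) ∧
          Fermat.Agent.H22.KL.GoodBasis A E₁ ϖ s ∧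
          Fermat.Agent.H22.KL.UnramifiedNear A E₁ ϖ s (X : A[X]) ∧
          (∀ z ∈ Fermat.Agent.H22.KL.gaussClosure A E ϖ x,
            algebraMap E E₁ z ∈ Fermat.Agent.H22.KL.gaussClosure A E₁ ϖ s) ∧
          (∀ (y : E) (s₁ : A[X]), Fermat.Agent.H22.KL.OutsideMax A ϖ (X : A[X]) s₁ →
            ∀ b₁ ∈ Fermat.Agent.H22.KL.chartClosure A E₁ s,
              Fermat.Agent.H22.KL.PiDvdSet A E₁ ϖ (Fermat.Agent.H22.KL.gaussClosure A E₁ ϖ s)
                (aeval s s₁ * algebraMap E E₁ y - b₁) →
              ∃ s₀ : A[X], Fermat.Agent.H22.KL.OutsideMax A ϖ (X - C c) s₀ ∧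
                ∃ b ∈ Fermat.Agent.H22.KL.chartClosure A E x,
                  Fermat.Agent.H22.KL.PiDvdSet A E ϖ (Fermat.Agent.H22.KL.gaussClosure A E ϖ x)
                    (aeval x s₀ * y - b))

/-- **KL-N-TAME, full form**: purity (a theorem) + the tame cover package. -/
theorem normalityAtFull_of_cover (hK : TameCoverStatement) : NormalityAtFullStatement := by
  intro A _ _ _ E _ _ _ hinj ϖ hϖ x hx hGB g hgm hgirr hBr y hy hint
  rcases hBr with hUN | ⟨c, e, ⟨p, hp⟩, he, heu, hζ, hT, hO⟩
  · exact purityFullStatement A E hinj ϖ hϖ x hx hGB g hgm hgirr hUN y hy hint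
  · obtain ⟨E₁, iF, iA, iE, iT, iC, s, hinj₁, hs, hse, hGB₁, hUN₁, hC, hD⟩ :=
      hK A E hinj ϖ hϖ x hx hGB c e he heu hζ hT hO
    have hxs : algebraMap E E₁ x = aeval s (X ^ e + C c : A[X]) := by
      simp only [map_add, map_pow, aeval_X, aeval_C]
      rw [hse, map_sub, ← IsScalarTower.algebraMap_apply]
      ring
    have hint₁ := intModPi_map A E E₁ ϖ x s _ hxs hC y hint
    have hXirr : Irreducible ((X : A[X]).map (IsLocalRing.residue A)) := by
      rw [Polynomial.map_X]
      exact irreducible_X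
    obtain ⟨s₁, hs₁, b₁, hb₁, hsb⟩ :=
      purityFullStatement A E₁ hinj₁ ϖ hϖ s hs hGB₁ X monic_X hXirr hUN₁
        (algebraMap E E₁ y) (hC y hy) hint₁
    obtain ⟨s₀, hs₀, b, hb, hsb₀⟩ := hD y s₁ hs₁ b₁ hb₁ hsb
    refine ⟨s₀, ?_, b, hb, hsb₀⟩
    have hg : g = (X - C c) + C ϖ * p := hp
    exact (Fermat.Agent.H22.KL.outsideMax_congr hg).1 hs₀

/-- **KL-N-TAME (row 396)**, idempotent form. -/
theorem normalityAt_of_cover (hK : TameCoverStatement) :
    Fermat.Agent.H22.KL.NormalityAtStatement :=
  normalityAtStatement_of_full (normalityAtFull_of_cover hK)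

end Fermat.Agent.H91.KLNorm
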