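import Fermat.Agent.H91.PurityMain

/-!
# P-ES / KL-NORM (row 355, sub-lead helper91): interfaces

Normality of the special fibre in the TAME case
(= purity (B3) + Kummer base change (B4) + local-global of findings #298).

## Concrete setting (what the consumer KL-ASM and the providers KL-GB / KL-BR / KL-KUM see)

`A₀` a DVR with uniformiser `ϖ`, `K₀ = Frac A₀` of characteristic `0`, `E` a field over `K₀`,
`x ∈ E` transcendental over `K₀`, `E` finite over `K₀(x) = IntermediateField.adjoin K₀ {x}`.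

* `IsIntA A₀ x y` : `y` is integral over `A₀[x] = Algebra.adjoin A₀ {x}`  (`y ∈ B`).
* `InC A₀ ϖ x y` : `h * y ∈ B` for some `h ∈ A₀[x]`, `h ∉ ϖ A₀[x]`  (`y ∈ C`, the integral closure
  of the Gauss valuation ring of `K₀(x)`).
* `GoodBasis A₀ K₀ ϖ x` : hypothesis (GB).
* `BranchData A₀ K₀ ϖ x Cbr e` : hypothesis (BR) + (DEG).
* `NormalityStatement` : **the target of KL-NORM**:
  every `y ∈ C` which is integral modulo `ϖ C` over `A₀[x]` is congruent modulo `ϖ C` to an
  element of `B`.   `IdempotentStatement` : the special case `y² - y ∈ ϖ C` used by KL.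

## Abstract setting (rows KL-NORM-*)

`R` integrally closed domain, `K = Frac R`, `E / K` finite, `p ∈ R` prime; `InGaussClosure`.
-/

set_option autoImplicit false

noncomputable section

open Polynomial IntermediateField

namespace Fermat.Agent.H91.KLNorm

/-! ## Concrete setting -/

section Concrete

variable (A₀ : Type) [CommRing A₀]
variable (K₀ : Type) [Field K₀] [Algebra A₀ K₀]
variable {E : Type} [Field E] [Algebra A₀ E] [Algebra K₀ E]

/-- `y ∈ B`: `y` is integral over `A₀[x]`. -/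
def IsIntA (x y : E) : Prop :=
  IsIntegral ↥(Algebra.adjoin A₀ ({x} : Set E)) y

/-- `d ∈ ϖ A₀[x]`. -/
def InPiA (ϖ : A₀) (x d : E) : Prop :=
  ∃ d' ∈ Algebra.adjoin A₀ ({x} : Set E), d = algebraMap A₀ E ϖ * d'

/-- `y ∈ C`: there is `h ∈ A₀[x]`, `h ∉ ϖ A₀[x]`, with `h * y ∈ B`. -/
def InC (ϖ : A₀) (x y : E) : Prop :=
  ∃ h ∈ Algebra.adjoin A₀ ({x} : Set E), ¬ InPiA A₀ ϖ x h ∧ IsIntA A₀ x (h * y)

/-- **(GB)** a basis of `E` over `K₀(x)` consisting of elements integral over `A₀[x]` whose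
discriminant (an element of `A₀[x]`) is not divisible by `ϖ`. -/
def GoodBasis (ϖ : A₀) (x : E) : Prop :=
  ∃ (n : ℕ) (b : Fin n → E),
    Module.finrank ↥(IntermediateField.adjoin K₀ ({x} : Set E)) E = n ∧
    (∀ i, IsIntA A₀ x (b i)) ∧
    ∃ d ∈ Algebra.adjoin A₀ ({x} : Set E),
      d = algebraMap ↥(IntermediateField.adjoin K₀ ({x} : Set E)) E
        (Algebra.discr ↥(IntermediateField.adjoin K₀ ({x} : Set E)) b) ∧
      ¬ InPiA A₀ ϖ x d

/-- the generic-fibre ring `K₀[x]` -/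
abbrev Rg (x : E) : Type := ↥(Algebra.adjoin K₀ ({x} : Set E))

/-- the integral closure `S` of `K₀[x]` in `E` -/
abbrev Sg (x : E) : Type := ↥(integralClosure ↥(Algebra.adjoin K₀ ({x} : Set E)) E)

/-- the prime `q` of `S` is unramified over `K₀[x]`: some element of `K₀[x]` lies in `q` but not
in `q ^ 2` -/
def IsUnramifiedPrime (x : E) (q : Ideal (Sg K₀ x)) : Prop :=
  ∃ h : Rg K₀ x, algebraMap (Rg K₀ x) (Sg K₀ x) h ∈ q ∧
    algebraMap (Rg K₀ x) (Sg K₀ x) h ∉ q ^ 2

/-- **(BR) + (DEG)**: branch data in the generic fibre.  `Cbr` the finite branch values (in `A₀`,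
pairwise distinct modulo `ϖ`), `e c` the tame exponent at `c` (a unit of `A₀`, with
`μ_{e c} ⊆ A₀`, and `T ^ (e c) - (x - c)` irreducible over `E`); every nonzero prime of `S`
containing no `x - c` is unramified over `K₀[x]`, and for a prime `q` containing `x - c` the exact
power `n` with `x - c ∈ q ^ n \ q ^ (n + 1)` divides `e c`. -/
def BranchData (x : E) (Cbr : Finset A₀) (e : A₀ → ℕ) : Prop :=
  (∀ c ∈ Cbr, 0 < e c ∧ IsUnit ((e c : ℕ) : A₀) ∧ (∃ ζ : A₀, IsPrimitiveRoot ζ (e c)) ∧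
    Irreducible (X ^ e c - C (x - algebraMap A₀ E c) : E[X])) ∧
  (∀ c ∈ Cbr, ∀ c' ∈ Cbr, c ≠ c' → IsUnit (c - c')) ∧
  (∀ q : Ideal (Sg K₀ x), q.IsPrime → q ≠ ⊥ →
    (∀ c ∈ Cbr, ¬ ∃ s ∈ q, ((s : Sg K₀ x) : E) = x - algebraMap A₀ E c) →
    IsUnramifiedPrime K₀ x q) ∧
  (∀ c ∈ Cbr, ∀ q : Ideal (Sg K₀ x), q.IsPrime →
    ∀ s ∈ q, ((s : Sg K₀ x) : E) = x - algebraMap A₀ E c →
      ∀ n : ℕ, s ∈ q ^ n → s ∉ q ^ (n + 1) → n ∣ e c)

/-- the standing hypotheses of KL-NORM -/
structure Setting [IsDomain A₀] [IsDiscreteValuationRing A₀] [CharZero K₀] [IsFractionRing A₀ K₀]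
    [IsScalarTower A₀ K₀ E] (ϖ : A₀) (x : E) (Cbr : Finset A₀) (e : A₀ → ℕ) : Prop where
  irreducible : Irreducible ϖ
  transcendental : Transcendental K₀ x
  finite : FiniteDimensional ↥(IntermediateField.adjoin K₀ ({x} : Set E)) E
  goodBasis : GoodBasis A₀ K₀ ϖ x
  branch : BranchData A₀ K₀ x Cbr e

end Concrete

/-- **KL-NORM, the target.**  In the setting above every `y ∈ C` which satisfies a monic
polynomial with coefficients in `A₀[x]` modulo `ϖ C` is congruent modulo `ϖ C` to an element of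
`B` (the special fibre `B / ϖ B` is integrally closed in its total ring of fractions `C / ϖ C`). -/
def NormalityStatement : Prop :=
  ∀ (A₀ : Type) [CommRing A₀] [IsDomain A₀] [IsDiscreteValuationRing A₀]
    (K₀ : Type) [Field K₀] [CharZero K₀] [Algebra A₀ K₀] [IsFractionRing A₀ K₀]
    (E : Type) [Field E] [Algebra A₀ E] [Algebra K₀ E] [IsScalarTower A₀ K₀ E]
    (ϖ : A₀) (x : E) (Cbr : Finset A₀) (e : A₀ → ℕ), Setting A₀ K₀ ϖ x Cbr e →
    ∀ y : E, InC A₀ ϖ x y →
      (∃ P : (↥(Algebra.adjoin A₀ ({x} : Set E)))[X], P.Monic ∧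
        ∃ z : E, InC A₀ ϖ x z ∧ Polynomial.aeval y P = algebraMap A₀ E ϖ * z) →
      ∃ b : E, IsIntA A₀ x b ∧ ∃ z : E, InC A₀ ϖ x z ∧ y - b = algebraMap A₀ E ϖ * z

/-- **KL-NORM, idempotent form** (what KL uses): an element of `C` which is idempotent modulo
`ϖ C` is congruent modulo `ϖ C` to an element of `B`. -/
def IdempotentStatement : Prop :=
  ∀ (A₀ : Type) [CommRing A₀] [IsDomain A₀] [IsDiscreteValuationRing A₀]
    (K₀ : Type) [Field K₀] [CharZero K₀] [Algebra A₀ K₀] [IsFractionRing A₀ K₀]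
    (E : Type) [Field E] [Algebra A₀ E] [Algebra K₀ E] [IsScalarTower A₀ K₀ E]
    (ϖ : A₀) (x : E) (Cbr : Finset A₀) (e : A₀ → ℕ), Setting A₀ K₀ ϖ x Cbr e →
    ∀ y : E, InC A₀ ϖ x y →
      (∃ z : E, InC A₀ ϖ x z ∧ y * y - y = algebraMap A₀ E ϖ * z) →
      ∃ b : E, IsIntA A₀ x b ∧ ∃ z : E, InC A₀ ϖ x z ∧ y - b = algebraMap A₀ E ϖ * z

theorem idempotentStatement_of_normalityStatement (h : NormalityStatement) :
    IdempotentStatement := by
  intro A₀ _ _ _ K₀ _ _ _ _ E _ _ _ _ ϖ x Cbr e hS y hy hyy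
  refine h A₀ K₀ E ϖ x Cbr e hS y hy ?_
  obtain ⟨z, hz, hyz⟩ := hyy
  refine ⟨X ^ 2 - X, ?_, z, hz, ?_⟩
  · exact monic_X_pow_sub (by simp)
  · simp only [map_sub, map_pow, aeval_X]
    rw [← hyz]; ring

/-! ## Abstract setting -/

section Abstract

variable (R : Type*) [CommRing R]
variable (E : Type*) [Field E] [Algebra R E]

/-- `y ∈ C` (abstract form): `h • y` is integral over `R` for some `h ∉ (p)`. -/
def InGaussClosure (p : R) (y : E) : Prop :=
  ∃ h : R, ¬ p ∣ h ∧ IsIntegral R (h • y)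

end Abstract

/-- **KL-NORM-MAXORD** (unit discriminant ⟹ maximal order, local form at a maximal ideal `𝔪 ∋ p`):
if `B` has a good basis at `𝔪`, every `y ∈ C` which is integral modulo `p C` becomes,
after multiplication by some `g ∉ 𝔪`, an element of `B + p C`. -/
def MaxOrdLocalStatement : Prop :=
  ∀ (R : Type) [CommRing R] [IsDomain R] [IsIntegrallyClosed R]
    (K : Type) [Field K] [Algebra R K] [IsFractionRing R K]
    (E : Type) [Field E] [Algebra K E] [Algebra R E] [IsScalarTower R K E]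
    [FiniteDimensional K E] (p : R), Prime p → IsPrincipalIdealRing (R ⧸ Ideal.span {p}) →
    ∀ (𝔪 : Ideal R), 𝔪.IsMaximal → p ∈ 𝔪 → HasGoodBasisAt R K E 𝔪 →
    ∀ y : E, InGaussClosure R E p y →
      (∃ P : R[X], P.Monic ∧ ∃ z : E, InGaussClosure R E p z ∧ Polynomial.aeval y P = p • z) →
      ∃ g : R, g ∉ 𝔪 ∧ ∃ b z : E, IsIntegral R b ∧ InGaussClosure R E p z ∧ g • y = b + p • z

/-- **KL-NORM-LG** (local-global): if for every maximal ideal `𝔪 ∋ p` some `g ∉ 𝔪` moves `y` into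
`B + p C`, then `y ∈ B + p C`. -/
def LocalGlobalStatement : Prop :=
  ∀ (R : Type) [CommRing R] [IsDomain R]
    (E : Type) [Field E] [Algebra R E] (p : R), Prime p → ∀ (y : E),
    (∀ (𝔪 : Ideal R), 𝔪.IsMaximal → p ∈ 𝔪 →
      ∃ g : R, g ∉ 𝔪 ∧ ∃ b z : E, IsIntegral R b ∧ InGaussClosure R E p z ∧ g • y = b + p • z) →
    InGaussClosure R E p y →
    ∃ b z : E, IsIntegral R b ∧ InGaussClosure R E p z ∧ y = b + p • z

/-- **KL-NORM-DED** (Dedekind bridge): `Rg = R[1/p]` a Dedekind domain (in the application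
`R = A₀[X]`, `Rg = K₀[X]`), `S` the integral closure of `Rg` in `E`, residue characteristic `0`.
If `h ∉ q ^ 2` for every prime `q` of `S` containing the prime element `h` of `R` (`h` not
associated to `p`), the trace form of the integral closure of `R` is nondegenerate
modulo `h`. -/
def DedekindBridgeStatement : Prop :=
  ∀ (R : Type) [CommRing R] [IsDomain R] [IsIntegrallyClosed R]
    (Rg : Type) [CommRing Rg] [IsDomain Rg] [IsDedekindDomain Rg] [Algebra R Rg]
    (K : Type) [Field K] [CharZero K] [Algebra R K] [IsFractionRing R K] [Algebra Rg K]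
    [IsFractionRing Rg K] [IsScalarTower R Rg K]
    (E : Type) [Field E] [Algebra K E] [Algebra R E] [IsScalarTower R K E]
    [Algebra Rg E] [IsScalarTower Rg K E] [IsScalarTower R Rg E]
    [FiniteDimensional K E] (p : R), Prime p → IsLocalization.Away p Rg →
    ∀ h : R, Prime h → ¬ Associated h p →
    (∀ q : Ideal ↥(integralClosure Rg E), q.IsPrime →
      algebraMap Rg ↥(integralClosure Rg E) (algebraMap R Rg h) ∈ q →
      algebraMap Rg ↥(integralClosure Rg E) (algebraMap R Rg h) ∉ q ^ 2) →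
    TraceNondegAt R K E (Ideal.span {h})

end Fermat.Agent.H91.KLNorm
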