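import Fermat.Agent.H91.KLNorm.PurityGlue
import Fermat.Agent.H57.PurityMaxOrd
import Fermat.Agent.H68.DedekindBridgeV

/-!
# P-ES / KL-N-P (row 395): the ADAPTER and the final `PurityStatement`

* `isLocalization_away_of_irreducible` : for a DVR `A` with uniformiser `ϖ`, the fraction field is
  `A[1/ϖ]`.
* `unramifiedAdapter : UnramifiedAdapterStatement` (instantiation of helper68's
  `dedekindBridgeV` with `Rg := (FractionRing A)[X]`).
* `purityStatement : Fermat.Agent.H22.KL.PurityStatement`, `purityFullStatement`.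
-/

set_option autoImplicit false
set_option linter.style.haveILetI false
set_option linter.unusedSectionVars false

noncomputable section

open Polynomial

namespace Fermat.Agent.H91.KLNorm

open Fermat.Agent.H22.KL

section Loc

variable (A : Type) [CommRing A] [IsDomain A] [IsDiscreteValuationRing A]

/-- For a DVR `A` with uniformiser `ϖ`, the fraction field is `A[1/ϖ]`. -/
theorem isLocalization_away_of_irreducible {ϖ : A} (hϖ : Irreducible ϖ)
    (F : Type) [CommRing F] [Algebra A F] [IsFractionRing A F] : IsLocalization.Away ϖ F := by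
  refine (IsLocalization.iff_of_le_of_exists_dvd (M := Submonoid.powers ϖ) (S := F)
    (nonZeroDivisors A) ?_ ?_).2 inferInstance
  · exact powers_le_nonZeroDivisors_of_noZeroDivisors hϖ.ne_zero
  · intro n hn
    have hn0 : n ≠ 0 := nonZeroDivisors.ne_zero hn
    obtain ⟨k, u, hu⟩ := IsDiscreteValuationRing.eq_unit_mul_pow_irreducible hn0 hϖ
    refine ⟨ϖ ^ k, ⟨k, rfl⟩, ?_⟩
    refine ⟨((u⁻¹ : Aˣ) : A), ?_⟩
    rw [hu]
    have : (u : A) * ϖ ^ k * ((u⁻¹ : Aˣ) : A) = ((u : A) * ((u⁻¹ : Aˣ) : A)) * ϖ ^ k := by ring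
    rw [this, Units.mul_inv, one_mul]

attribute [local instance] Polynomial.algebra in
/-- `(Frac A)[X] = A[X][1/ϖ]`. -/
theorem isLocalization_away_C {ϖ : A} (hϖ : Irreducible ϖ)
    (F : Type) [CommRing F] [Algebra A F] [IsFractionRing A F] :
    IsLocalization.Away (C ϖ : A[X]) F[X] := by
  haveI := isLocalization_away_of_irreducible A hϖ F
  have h := Polynomial.isLocalization (Submonoid.powers ϖ) F
  have hmap : (Submonoid.powers ϖ).map (C : A →+* A[X]) = Submonoid.powers (C ϖ : A[X]) := by
    rw [Submonoid.map_powers]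
  rw [hmap] at h
  exact h

end Loc

section Adapter

attribute [local instance] Polynomial.algebra

/-- **ADAPTER**: in the `H22.KL` setting, `UnramifiedNear` at `(ϖ, g)` makes the trace form of
`B` nondegenerate modulo every prime element `h ∈ (ϖ, g)` not associated to `ϖ`. -/
theorem unramifiedAdapter : UnramifiedAdapterStatement := by
  intro A _ _ _ E _ _ _ hinj ϖ hϖ x hx hGB g hgm hgirr hUN
  letI := polyAlgE A E x
  letI := polyAlgK A E x
  intro h hh hhprime hhnot
  haveI := polyAlg_isScalarTower A E x
  haveI hFR := polyAlg_isFractionRing A E hx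
  haveI := finiteDimensional_of_goodBasis A E hGB
  haveI hCZK : CharZero ↥(chartField A E x) :=
    RingHom.charZero (algebraMap ↥(chartField A E x) E)
  have hp : Prime (C ϖ : A[X]) := prime_C_of_irreducible A hϖ
  haveI hloc : IsLocalization.Away (C ϖ : A[X]) (FractionRing A)[X] :=
    isLocalization_away_C A hϖ (FractionRing A)
  -- the algebra structures on `Rg = (Frac A)[X]`
  have hunit : IsUnit (algebraMap A[X] ↥(chartField A E x) (C ϖ)) := by
    rw [isUnit_iff_ne_zero, Ne, map_eq_zero_iff _ (IsFractionRing.injective A[X] _)]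
    exact hp.ne_zero
  let φ : (FractionRing A)[X] →+* ↥(chartField A E x) :=
    IsLocalization.Away.lift (C ϖ : A[X]) hunit
  have hφ : ∀ f : A[X], φ (algebraMap A[X] (FractionRing A)[X] f) =
      algebraMap A[X] ↥(chartField A E x) f := fun f =>
    IsLocalization.Away.lift_eq (C ϖ : A[X]) hunit f
  letI algK : Algebra (FractionRing A)[X] ↥(chartField A E x) := φ.toAlgebra
  letI algE : Algebra (FractionRing A)[X] E :=
    ((algebraMap ↥(chartField A E x) E).comp φ).toAlgebra
  haveI t1 : IsScalarTower A[X] (FractionRing A)[X] ↥(chartField A E x) :=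
    IsScalarTower.of_algebraMap_eq fun f => (hφ f).symm
  haveI t2 : IsScalarTower (FractionRing A)[X] ↥(chartField A E x) E :=
    IsScalarTower.of_algebraMap_eq fun f => rfl
  haveI t3 : IsScalarTower A[X] (FractionRing A)[X] E :=
    IsScalarTower.of_algebraMap_eq fun f => by
      show algebraMap A[X] E f = algebraMap ↥(chartField A E x) E (φ (algebraMap _ _ f))
      rw [hφ]
      rfl
  haveI hFRg : IsFractionRing (FractionRing A)[X] ↥(chartField A E x) :=
    IsFractionRing.isFractionRing_of_isDomain_of_isLocalization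
      (Submonoid.powers (C ϖ : A[X])) (FractionRing A)[X] ↥(chartField A E x)
  have hCZA : CharZero A := RingHom.charZero (algebraMap A E)
  have hQ : ∀ n : ℕ, n ≠ 0 → IsUnit ((n : ℕ) : (FractionRing A)[X]) := by
    intro n hn
    have h1 : ((n : ℕ) : (FractionRing A)[X]) = C ((n : ℕ) : FractionRing A) := by simp
    rw [h1, Polynomial.isUnit_C, isUnit_iff_ne_zero]
    haveI : CharZero (FractionRing A) :=
      charZero_of_injective_algebraMap (IsFractionRing.injective A (FractionRing A))
    exact Nat.cast_ne_zero.mpr hn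
  refine Fermat.Agent.H68.dedekindBridgeV A[X] (FractionRing A)[X] ↥(chartField A E x) E
    (C ϖ) hp hloc hQ h hhprime hhnot ?_
  intro v hv hPID hRg hcentre
  -- `v` is a finite place in the disc of `(ϖ, g)`
  have hAE : ∀ a : A, algebraMap A E a =
      algebraMap (FractionRing A)[X] E (C (algebraMap A (FractionRing A) a)) := by
    intro a
    have h1 : (C (algebraMap A (FractionRing A) a) : (FractionRing A)[X]) =
        algebraMap A[X] (FractionRing A)[X] (C a) := by
      show _ = Polynomial.map _ (C a)
      rw [Polynomial.map_C]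
    rw [h1, ← IsScalarTower.algebraMap_apply A[X] (FractionRing A)[X] E, polyAlgE_algebraMap,
      aeval_C]
  have hplace : IsPlace A E v := by
    refine ⟨hv, hPID, fun a ha => ⟨?_, ?_⟩⟩
    · rw [hAE]; exact hRg _
    · have h0 : algebraMap A (FractionRing A) a ≠ 0 :=
        (map_ne_zero_iff _ (IsFractionRing.injective A (FractionRing A))).mpr ha
      have h1 : (algebraMap A E a)⁻¹ =
          algebraMap (FractionRing A)[X] E (C (algebraMap A (FractionRing A) a)⁻¹) := by
        symm
        apply eq_inv_of_mul_eq_one_left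
        rw [hAE, ← map_mul, ← C_mul, inv_mul_cancel₀ h0, C_1, map_one]
      rw [h1]; exact hRg _
  have hxv : x ∈ v := by
    have h1 : x = algebraMap (FractionRing A)[X] E (algebraMap A[X] (FractionRing A)[X] X) := by
      rw [← IsScalarTower.algebraMap_apply A[X] (FractionRing A)[X] E, polyAlgE_algebraMap,
        aeval_X]
    rw [h1]; exact hRg _
  have hdisc : InDisc A E ϖ x g v := by
    intro f hf
    have h1 : h ∣ f := (hcentre f).1 hf
    have h2 : f ∈ Ideal.span {(C ϖ : A[X]), g} := by
      obtain ⟨c, rfl⟩ := h1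
      exact Ideal.mul_mem_right _ _ hh
    obtain ⟨a, b, hab⟩ := Ideal.mem_span_pair.1 h2
    exact ⟨a, b, by rw [← hab]; ring⟩
  obtain ⟨t, ht, ht0, htn, htu⟩ := hUN v ⟨hplace, hxv⟩ hdisc
  exact ⟨t, ⟨⟨t, ht⟩, rfl⟩, ht0, htn, htu⟩

/-- **KL-N-P (row 395)**: `PurityStatement` of `H22.KL`. -/
theorem purityStatement : Fermat.Agent.H22.KL.PurityStatement :=
  purityStatement_of Fermat.Agent.H57.maxOrdLocalStatement unramifiedAdapter

end Adapter

end Fermat.Agent.H91.KLNorm
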