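import Fermat.Agent.H91.KLNorm.PurityFull
import Fermat.Agent.H33.KL.Glue
import Fermat.Agent.H89.KLGauss

/-!
# P-ES / KL-NORM, FULL form: local-global glue and the chart at infinity

The glue of helper33 (`Fermat.Agent.H33.KLGlue`) with the hypothesis "`y` idempotent modulo `ϖ C`"
replaced by "`y` integral over `A[x]` modulo `ϖ C`" (`IntModPi`).

* `normalityFull_of_normalityAtFull : NormalityAtFullStatement → NormalityFullStatement`
* `NormalityInfFullStatement`, `normalityInfFull_of_normalityAtFull`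
* `TwoChartStatement`, `twoChart_of_normalityAtFull` : the form used by the genus comparison
  (ES-D, E6): `y ≡ b ∈ B(x)` and `x⁻ᵐ y ≡ c ∈ B(x⁻¹)` modulo `ϖ C`.
-/

set_option autoImplicit false
set_option linter.style.haveILetI false
set_option linter.unusedSectionVars false

noncomputable section

open Polynomial

namespace Fermat.Agent.H91.KLNorm

open Fermat.Agent.H22.KL
open Fermat.Agent.H33.KLGlue

/-- **KL-N-GLUE (a), full form**: local-global principle. -/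
theorem normalityFull_of_normalityAtFull (hN : NormalityAtFullStatement) :
    NormalityFullStatement := by
  intro A _ _ _ E _ _ _ hinj ϖ hϖ x hx hGB hBr y hy hint
  obtain ⟨hsub, hring, -⟩ := Fermat.Agent.H89.gaussClosureStatement A E hinj ϖ hϖ x hx
  have hadd : ∀ a ∈ gaussClosure A E ϖ x, ∀ b ∈ gaussClosure A E ϖ x,
      a + b ∈ gaussClosure A E ϖ x := fun a ha b hb => (hring a ha b hb).1
  have hmul : ∀ a ∈ gaussClosure A E ϖ x, ∀ b ∈ gaussClosure A E ϖ x,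
      a * b ∈ gaussClosure A E ϖ x := fun a ha b hb => (hring a ha b hb).2.1
  apply one_mem_glueIdeal (hsub := hsub) (hadd := hadd) (hmul := hmul)
  by_contra hI
  obtain ⟨g, hgm, hgirr, hg⟩ := exists_monic_of_ne_top hϖ _ hI
    (C_mem_glueIdeal (hsub := hsub) (hadd := hadd) (hmul := hmul) hy)
  obtain ⟨s, hs, b, hb, hbc⟩ := hN A E hinj ϖ hϖ x hx hGB g hgm hgirr (hBr g hgm hgirr) y hy hint
  exact hs (hg s ⟨b, hb, hbc⟩)

/-- **KL-NORM, chart at infinity, full form**: if `y ∈ C` is integral over `A[x⁻¹]` modulo `ϖ C`,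
the branch hypothesis holds at the point `x⁻¹ = 0`, and `x⁻ᵏ y` is congruent modulo `ϖ C` to an
element of `B(x⁻¹)` for some `k`, then `y` is congruent modulo `ϖ C` to an element of `B(x⁻¹)`. -/
def NormalityInfFullStatement : Prop :=
  ∀ (A : Type) [CommRing A] [IsDomain A] [IsDiscreteValuationRing A]
    (E : Type) [Field E] [Algebra A E] [CharZero E],
    Function.Injective (algebraMap A E) →
    ∀ (ϖ : A), Irreducible ϖ → ∀ (x : E), Transcendental A x →
      Fermat.Agent.H22.KL.GoodBasis A E ϖ x →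
      BranchHypAt A E ϖ x⁻¹ (X : A[X]) →
      ∀ y ∈ gaussClosure A E ϖ x, IntModPi A E ϖ x⁻¹ y →
        (∃ k : ℕ, ∃ b ∈ chartClosure A E x⁻¹,
          PiDvdSet A E ϖ (gaussClosure A E ϖ x) (x⁻¹ ^ k * y - b)) →
        ∃ b ∈ chartClosure A E x⁻¹, PiDvdSet A E ϖ (gaussClosure A E ϖ x) (y - b)

/-- **KL-N-GLUE (b), full form**: the chart at infinity. -/
theorem normalityInfFull_of_normalityAtFull (hN : NormalityAtFullStatement) :
    NormalityInfFullStatement := by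
  intro A _ _ _ E _ _ _ hinj ϖ hϖ x hx hGB hBr y hy hint hyb
  obtain ⟨k, b, hb, hyb⟩ := hyb
  have hx' : Transcendental A x⁻¹ := transcendental_inv hx
  obtain ⟨-, hring, hCeq⟩ := Fermat.Agent.H89.gaussClosureStatement A E hinj ϖ hϖ x hx
  obtain ⟨hsub', -, -⟩ := Fermat.Agent.H89.gaussClosureStatement A E hinj ϖ hϖ x⁻¹ hx'
  rw [hCeq] at hsub'
  have hadd : ∀ a ∈ gaussClosure A E ϖ x, ∀ b ∈ gaussClosure A E ϖ x,
      a + b ∈ gaussClosure A E ϖ x := fun a ha b hb => (hring a ha b hb).1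
  have hmul : ∀ a ∈ gaussClosure A E ϖ x, ∀ b ∈ gaussClosure A E ϖ x,
      a * b ∈ gaussClosure A E ϖ x := fun a ha b hb => (hring a ha b hb).2.1
  apply one_mem_glueIdeal (x₁ := x⁻¹) (hsub := hsub') (hadd := hadd) (hmul := hmul)
  have hGB' := Fermat.Agent.H89.goodBasisInvStatement A E hinj ϖ hϖ x hx hGB
  have hXirr : Irreducible ((X : A[X]).map (IsLocalRing.residue A)) := by
    rw [Polynomial.map_X]
    exact irreducible_X
  have hy' : y ∈ gaussClosure A E ϖ x⁻¹ := by rw [hCeq]; exact hy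
  obtain ⟨s, hs, b', hb', hbc'⟩ :=
    hN A E hinj ϖ hϖ x⁻¹ hx' hGB' X monic_X hXirr hBr y hy' hint
  rw [hCeq] at hbc'
  have hu : IsUnit (s.coeff 0) := isUnit_coeff_zero_of_outside hϖ s hs
  refine eq_top_of_pow_mem _ k ?_ s ⟨b', hb', hbc'⟩ hu
  refine ⟨b, hb, ?_⟩
  rw [map_pow, aeval_X]
  exact hyb

/-- **TWO-CHART NORMALITY** (input of the genus comparison): if `y ∈ C` is integral over `A[x]`
modulo `ϖ C` and `x⁻ᵐ y` is integral over `A[x⁻¹]` modulo `ϖ C`, then `y ≡ b` and `x⁻ᵐ y ≡ c`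
modulo `ϖ C` with `b ∈ B(x)`, `c ∈ B(x⁻¹)`. -/
def TwoChartStatement : Prop :=
  ∀ (A : Type) [CommRing A] [IsDomain A] [IsDiscreteValuationRing A]
    (E : Type) [Field E] [Algebra A E] [CharZero E],
    Function.Injective (algebraMap A E) →
    ∀ (ϖ : A), Irreducible ϖ → ∀ (x : E), Transcendental A x →
      Fermat.Agent.H22.KL.GoodBasis A E ϖ x →
      (∀ g : A[X], g.Monic → Irreducible (g.map (IsLocalRing.residue A)) →
        BranchHypAt A E ϖ x g) →
      BranchHypAt A E ϖ x⁻¹ (X : A[X]) →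
      ∀ y ∈ gaussClosure A E ϖ x, IntModPi A E ϖ x y →
        ∀ m : ℕ, IntModPi A E ϖ x⁻¹ (x⁻¹ ^ m * y) →
          ∃ b ∈ chartClosure A E x, ∃ c ∈ chartClosure A E x⁻¹,
            PiDvdSet A E ϖ (gaussClosure A E ϖ x) (y - b) ∧
            PiDvdSet A E ϖ (gaussClosure A E ϖ x) (x⁻¹ ^ m * y - c)

theorem twoChart_of_normalityAtFull (hN : NormalityAtFullStatement) : TwoChartStatement := by
  intro A _ _ _ E _ _ _ hinj ϖ hϖ x hx hGB hBr hBrInf y hy hint m hintm
  have hx' : Transcendental A x⁻¹ := transcendental_inv hx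
  have hx0 : x ≠ 0 := ne_zero_of_transcendental hx
  obtain ⟨-, hring, hCeq⟩ := Fermat.Agent.H89.gaussClosureStatement A E hinj ϖ hϖ x hx
  obtain ⟨hsub', -, -⟩ := Fermat.Agent.H89.gaussClosureStatement A E hinj ϖ hϖ x⁻¹ hx'
  rw [hCeq] at hsub'
  have hmul : ∀ a ∈ gaussClosure A E ϖ x, ∀ b ∈ gaussClosure A E ϖ x,
      a * b ∈ gaussClosure A E ϖ x := fun a ha b hb => (hring a ha b hb).2.1
  have hxk : ∀ k : ℕ, x⁻¹ ^ k ∈ gaussClosure A E ϖ x := by
    intro k
    have h1 : x⁻¹ ^ k ∈ chartClosure A E x⁻¹ := by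
      have h2 := aeval_mem_chartClosure (A := A) x⁻¹ (X ^ k)
      rwa [map_pow, aeval_X] at h2
    exact hsub' _ h1
  obtain ⟨b, hb, c, hc, hyb⟩ :=
    normalityFull_of_normalityAtFull hN A E hinj ϖ hϖ x hx hGB hBr y hy hint
  obtain ⟨k, hk⟩ := exists_inv_pow_mul_mem hx0 hb
  have hinf := normalityInfFull_of_normalityAtFull hN A E hinj ϖ hϖ x hx hGB hBrInf
    (x⁻¹ ^ m * y) (hmul _ (hxk m) _ hy) hintm
    ⟨k, x⁻¹ ^ m * (x⁻¹ ^ k * b),
      (chartClosure A E x⁻¹).mul_mem (by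
        have h2 := aeval_mem_chartClosure (A := A) x⁻¹ (X ^ m)
        rwa [map_pow, aeval_X] at h2) hk,
      x⁻¹ ^ k * (x⁻¹ ^ m * c), hmul _ (hxk k) _ (hmul _ (hxk m) _ hc), by
        calc x⁻¹ ^ k * (x⁻¹ ^ m * y) - x⁻¹ ^ m * (x⁻¹ ^ k * b)
            = x⁻¹ ^ k * x⁻¹ ^ m * (y - b) := by ring
          _ = algebraMap A E ϖ * (x⁻¹ ^ k * (x⁻¹ ^ m * c)) := by rw [hyb]; ring⟩
  obtain ⟨c', hc', hyc'⟩ := hinf
  exact ⟨b, hb, c', hc', ⟨c, hc, hyb⟩, hyc'⟩

end Fermat.Agent.H91.KLNorm
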