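import Fermat.Agent.H91.KLNorm.Adapter
import Fermat.Agent.H91.KLNorm.PurityFull

/-!
# P-ES / KL-N-P (row 395): purity, full form

`purityFullStatement : PurityFullStatement` (the hypothesis on `y` is "`y` integral over `C`
modulo `ϖ`" instead of "`y² - y ∈ ϖ C`"), unconditional.
-/

set_option autoImplicit false

namespace Fermat.Agent.H91.KLNorm

/-- **KL-N-P, full form**: unconditional. -/
theorem purityFullStatement : PurityFullStatement :=
  purityFullStatement_of Fermat.Agent.H57.maxOrdLocalStatement unramifiedAdapter

end Fermat.Agent.H91.KLNorm
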