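import Fermat.Agent.H91.KLNorm.Interfaces

/-!
# P-ES / KL-NORM (row 355): interfaces, part 2 — the Kummer cover at a tame branch value

Setting of `Interfaces`; `c ∈ A₀` a branch value with exponent `e`.
`KumField A₀ x c e := E[T] / (T ^ e - (x - c))`, `s := root`, so `s ^ e = x - c`.

* `KummerStatement` (row KL-NORM-KUM): `(E₁, s)` is again a setting with a good basis, and
  `E₁ / E` is cyclic, generated by `σ : s ↦ ζ s`.
* `AbhyankarStatement` (row KL-NORM-ABH): every nonzero prime of the integral closure of `K₀[s]`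
  in `E₁` which contains no `x - c'` (`c' ∈ Cbr`, `c' ≠ c`) is unramified over `K₀[s]`.
-/

set_option autoImplicit false

noncomputable section

open Polynomial IntermediateField

namespace Fermat.Agent.H91.KLNorm

section Kummer

variable (A₀ : Type) [CommRing A₀]
variable {E : Type} [Field E] [Algebra A₀ E]

/-- the Kummer polynomial `T ^ e - (x - c)` -/
abbrev KumPoly (x : E) (c : A₀) (e : ℕ) : E[X] := X ^ e - C (x - algebraMap A₀ E c)

/-- the Kummer field `E(s)`, `s ^ e = x - c` -/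
abbrev KumField (x : E) (c : A₀) (e : ℕ) : Type := AdjoinRoot (KumPoly A₀ x c e)

/-- the element `s` -/
abbrev kumRoot (x : E) (c : A₀) (e : ℕ) : KumField A₀ x c e := AdjoinRoot.root (KumPoly A₀ x c e)

end Kummer

/-- **KL-NORM-KUM.**  The Kummer cover `E₁ = E(s)`, `s ^ e = x - c`, of a setting with a good basis
is again such a setting (base coordinate `s`), and `E₁ / E` is cyclic of degree `e` generated by
`σ : s ↦ ζ s`, with fixed field `E`. -/
def KummerStatement : Prop :=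
  ∀ (A₀ : Type) [CommRing A₀] [IsDomain A₀] [IsDiscreteValuationRing A₀]
    (K₀ : Type) [Field K₀] [CharZero K₀] [Algebra A₀ K₀] [IsFractionRing A₀ K₀]
    (E : Type) [Field E] [Algebra A₀ E] [Algebra K₀ E] [IsScalarTower A₀ K₀ E]
    (ϖ : A₀) (x : E), Irreducible ϖ → Transcendental K₀ x →
    FiniteDimensional ↥(IntermediateField.adjoin K₀ ({x} : Set E)) E →
    GoodBasis A₀ K₀ ϖ x →
    ∀ (c : A₀) (e : ℕ), 0 < e → IsUnit ((e : ℕ) : A₀) → ∀ ζ : A₀, IsPrimitiveRoot ζ e →
    ∀ [Fact (Irreducible (KumPoly A₀ x c e))],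
      Transcendental K₀ (kumRoot A₀ x c e) ∧
      FiniteDimensional
        ↥(IntermediateField.adjoin K₀ ({kumRoot A₀ x c e} : Set (KumField A₀ x c e)))
        (KumField A₀ x c e) ∧
      GoodBasis A₀ K₀ ϖ (kumRoot A₀ x c e) ∧
      ∃ σ : KumField A₀ x c e ≃ₐ[E] KumField A₀ x c e,
        σ (kumRoot A₀ x c e) = algebraMap A₀ (KumField A₀ x c e) ζ * kumRoot A₀ x c e ∧
        σ ^ e = 1 ∧
        ∀ y : KumField A₀ x c e, σ y = y → y ∈ (algebraMap E (KumField A₀ x c e)).range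

/-- **KL-NORM-ABH (Abhyankar's lemma, generic fibre).**  In a setting with branch data, let
`c ∈ Cbr` and `E₁ = E(s)`, `s ^ (e c) = x - c`.  Every nonzero prime `q₁` of the integral closure
of `K₀[s]` in `E₁` containing no `x - c'` (`c' ∈ Cbr`, `c' ≠ c`) is unramified over `K₀[s]`. -/
def AbhyankarStatement : Prop :=
  ∀ (A₀ : Type) [CommRing A₀] [IsDomain A₀] [IsDiscreteValuationRing A₀]
    (K₀ : Type) [Field K₀] [CharZero K₀] [Algebra A₀ K₀] [IsFractionRing A₀ K₀]
    (E : Type) [Field E] [Algebra A₀ E] [Algebra K₀ E] [IsScalarTower A₀ K₀ E]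
    (ϖ : A₀) (x : E) (Cbr : Finset A₀) (e : A₀ → ℕ), Setting A₀ K₀ ϖ x Cbr e →
    ∀ c ∈ Cbr, ∀ [Fact (Irreducible (KumPoly A₀ x c (e c)))],
      ∀ q₁ : Ideal (Sg K₀ (kumRoot A₀ x c (e c))), q₁.IsPrime → q₁ ≠ ⊥ →
        (∀ c' ∈ Cbr, c' ≠ c → ¬ ∃ t ∈ q₁,
          ((t : Sg K₀ (kumRoot A₀ x c (e c))) : KumField A₀ x c (e c)) =
            algebraMap E (KumField A₀ x c (e c)) (x - algebraMap A₀ E c')) →
        IsUnramifiedPrime K₀ (kumRoot A₀ x c (e c)) q₁

end Fermat.Agent.H91.KLNorm
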