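import Fermat.Agent.H91.KLNorm.Interfaces
import Fermat.Agent.H91.KLNorm.Inst

/-!
# P-ES / KL-N-P (row 395): `H22.KL.PurityStatement` from the abstract core

* `hasGoodBasisAt_of_forall_prime'` : purity with the hypothesis at the primes `h ≠ p` in
  trace-form shape.
* `UnramifiedAdapterStatement` : the ADAPTER (`UnramifiedNear` ⟹ nondegenerate trace form modulo
  every prime element `h ∈ (ϖ, g)`, `h ≠ ϖ`).
* `purityStatement_of : MaxOrdLocalStatement → UnramifiedAdapterStatement → PurityStatement`.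
-/

set_option autoImplicit false
set_option linter.style.haveILetI false
set_option linter.unusedSectionVars false

noncomputable section

open Polynomial

namespace Fermat.Agent.H91

section Purity'

variable {R : Type*} [CommRing R] [IsDomain R] [IsIntegrallyClosed R]
variable {K : Type*} [Field K] [Algebra R K] [IsFractionRing R K]
variable {E : Type*} [Field E] [Algebra K E] [Algebra R E] [IsScalarTower R K E]
  [FiniteDimensional K E]

/-- **PURITY**, mixed form: good basis at `(p)`, nondegenerate trace form modulo every other prime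
element of `𝔪`. -/
theorem hasGoodBasisAt_of_forall_prime' [IsNoetherianRing R] [UniqueFactorizationMonoid R] {p : R}
    (hp : Prime p) [IsPrincipalIdealRing (R ⧸ Ideal.span {p})]
    {𝔪 : Ideal R} [𝔪.IsPrime] (hp𝔪 : p ∈ 𝔪)
    (hgb : HasGoodBasisAt R K E (Ideal.span {p}))
    (hnd : ∀ h ∈ 𝔪, Prime h → ¬ Associated h p → TraceNondegAt R K E (Ideal.span {h})) :
    HasGoodBasisAt R K E 𝔪 := by
  classical
  haveI : Module.Finite R ↥(integralClosure R E) := hgb.finite
  have hnd' : ∀ h ∈ 𝔪, Prime h → TraceNondegAt R K E (Ideal.span {h}) := by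
    intro h hh hhp
    by_cases ha : Associated h p
    · have : Ideal.span {h} = Ideal.span {p} := Ideal.span_singleton_eq_span_singleton.mpr ha
      rw [this]
      exact hgb.traceNondegAt_span hp
    · exact hnd h hh hhp ha
  obtain ⟨n, b, r, G, hint, hli, hr1, hspan, hG, hd⟩ :=
    exists_basis_det_notMem K E hp hp𝔪 hnd'
  refine ⟨n, b, G, ?_, hint, hG, hd⟩
  have hd0 : G.det ≠ 0 := fun h0 => hd (h0 ▸ Ideal.zero_mem _)
  have hliK := linearIndependent_of_det_ne_zero hG hd0
  have hr0 : r ≠ 0 := by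
    rintro rfl
    obtain ⟨c, hc⟩ := hr1
    have h1 : (1 : R) ∈ 𝔪 := by
      have h2 : (1 : R) = p * (-c) := by rw [mul_neg, ← hc]; ring
      rw [h2]
      exact 𝔪.mul_mem_right _ hp𝔪
    exact (Ideal.IsPrime.ne_top ‹_›) ((Ideal.eq_top_iff_one 𝔪).mpr h1)
  have hspanK : ⊤ ≤ Submodule.span K (Set.range b) := by
    intro x _
    obtain ⟨s, hs0, hs⟩ := exists_ne_zero_isIntegral_smul (R := R) (K := K) x
    obtain ⟨c, hc⟩ := hspan _ hs
    have h1 : x = (algebraMap R K (r * s))⁻¹ • ∑ i, algebraMap R K (c i) • b i := by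
      have h2 : algebraMap R K (r * s) ≠ 0 :=
        (map_ne_zero_iff _ (IsFractionRing.injective R K)).mpr (mul_ne_zero hr0 hs0)
      rw [eq_inv_smul_iff₀ h2, algebraMap_smul, mul_smul, hc]
      refine Finset.sum_congr rfl fun i _ => ?_
      rw [algebraMap_smul]
    rw [h1]
    exact Submodule.smul_mem _ _ (Submodule.sum_mem _ fun i _ =>
      Submodule.smul_mem _ _ (Submodule.subset_span ⟨i, rfl⟩))
  have := Module.finrank_eq_card_basis (Module.Basis.mk hliK hspanK)
  rw [this, Fintype.card_fin]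

end Purity'

namespace KLNorm

open Fermat.Agent.H22.KL
open Fermat.Agent.H67.KLConn (PiDvd)
open Fermat.Agent.H87.KL (evX IntX GC)

/-- **ADAPTER** (helper59): in the `H22.KL` setting, `UnramifiedNear` at `(ϖ, g)` makes the trace
form of `B` nondegenerate modulo every prime element `h ∈ (ϖ, g)` not associated to `ϖ`
(instances: `polyAlgE`, `polyAlgK`). -/
def UnramifiedAdapterStatement : Prop :=
  ∀ (A : Type) [CommRing A] [IsDomain A] [IsDiscreteValuationRing A]
    (E : Type) [Field E] [Algebra A E] [CharZero E],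
    Function.Injective (algebraMap A E) →
    ∀ (ϖ : A), Irreducible ϖ → ∀ (x : E), Transcendental A x →
      Fermat.Agent.H22.KL.GoodBasis A E ϖ x →
      ∀ (g : A[X]), g.Monic → Irreducible (g.map (IsLocalRing.residue A)) →
        Fermat.Agent.H22.KL.UnramifiedNear A E ϖ x g →
        letI := polyAlgE A E x
        letI := polyAlgK A E x
        ∀ h ∈ Ideal.span {(C ϖ : A[X]), g}, Prime h → ¬ Associated h (C ϖ) →
          TraceNondegAt A[X] ↥(chartField A E x) E (Ideal.span {h})

/-- **KL-N-P**: `PurityStatement` of `H22.KL` from the maximal-order lemma and the adapter. -/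
theorem purityStatement_of (hMO : MaxOrdLocalStatement) (hAD : UnramifiedAdapterStatement) :
    Fermat.Agent.H22.KL.PurityStatement := by
  intro A _ _ _ E _ _ _ hinj ϖ hϖ x hx hGB g hgm hgirr hUN y hy hyy
  letI := polyAlgE A E x
  letI := polyAlgK A E x
  haveI := polyAlg_isScalarTower A E x
  haveI hFR := polyAlg_isFractionRing A E hx
  haveI := finiteDimensional_of_goodBasis A E hGB
  have hp : Prime (C ϖ : A[X]) := prime_C_of_irreducible A hϖ
  haveI hPID := isPrincipalIdealRing_quot A hϖ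
  haveI hmax := isMaximal_span_pair A hϖ hgirr
  have hp𝔪 : (C ϖ : A[X]) ∈ Ideal.span {(C ϖ : A[X]), g} :=
    Ideal.subset_span (Set.mem_insert _ _)
  have hgbp := hasGoodBasisAt_of_goodBasis A E hx hFR hGB
  have hnd := hAD A E hinj ϖ hϖ x hx hGB g hgm hgirr hUN
  have hgb𝔪 : HasGoodBasisAt A[X] ↥(chartField A E x) E (Ideal.span {(C ϖ : A[X]), g}) :=
    hasGoodBasisAt_of_forall_prime' hp hp𝔪 hgbp hnd
  -- translate `y`
  have hyG : InGaussClosure A[X] E (C ϖ) y := by
    obtain ⟨H, hH, hint⟩ := (Fermat.Agent.H87.KL.mem_gaussClosure_iff hx ϖ y).1 hy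
    exact ⟨H, hH, by rw [Algebra.smul_def]; exact hint⟩
  have hP : ∃ P : A[X][X], P.Monic ∧ ∃ z : E, InGaussClosure A[X] E (C ϖ) z ∧
      Polynomial.aeval y P = (C ϖ : A[X]) • z := by
    obtain ⟨c, hc, hyc⟩ := hyy
    obtain ⟨H, hH, hint⟩ := (Fermat.Agent.H87.KL.mem_gaussClosure_iff hx ϖ c).1 hc
    refine ⟨X ^ 2 - X, monic_X_pow_sub (by simp), c,
      ⟨H, hH, by rw [Algebra.smul_def]; exact hint⟩, ?_⟩
    simp only [map_sub, map_pow, aeval_X]
    rw [Algebra.smul_def, polyAlgE_algebraMap, aeval_C, ← hyc]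
    ring
  obtain ⟨s, hs, b, z, hb, hz, hsy⟩ :=
    hMO A[X] ↥(chartField A E x) E (C ϖ) hp hPID _ hmax hp𝔪 hgb𝔪 y hyG hP
  refine ⟨s, (outsideMax_iff A ϖ g s).2 hs, b,
    (Fermat.Agent.H87.KL.mem_chartClosure_iff x b).2 hb, z, ?_, ?_⟩
  · obtain ⟨H, hH, hint⟩ := hz
    exact (Fermat.Agent.H87.KL.mem_gaussClosure_iff hx ϖ z).2
      ⟨H, hH, by rw [Algebra.smul_def] at hint; exact hint⟩
  · rw [Algebra.smul_def, Algebra.smul_def, polyAlgE_algebraMap, polyAlgE_algebraMap,
      aeval_C] at hsy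
    rw [hsy]; ring

end KLNorm

end Fermat.Agent.H91
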